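import Mathlib
import Fermat.Agent.LT.T6.H189.ArchIntCut

/-!
# Row LT, tower T6, leaf T6.23.09 `AbelAreaRC` (helper127)

OFF-MAIN.  Mathlib + `T6/H189/ArchIntSpec.lean`, `ArchIntCut.lean` (vendored byte-identical) only.
No hole, nothing assumed.

`abelAreaRC127 : H189.AbelAreaRC`, i.e.

`(s, x) ↦ cosh s + e^s x² / 2` pushes the Lebesgue measure of the plane to `2π ·` the image of
`sinh t dt` (on `t > 0`) under `cosh`.

Route (for a measurable `φ ≥ 0`): Tonelli; `x = √2 e^{-s/2} v`; symmetrise `s ↦ -s`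
(`e^{-s/2} + e^{s/2} = 2 cosh (s/2)`); `w = √2 sinh (s/2)` (`1 + w² = cosh s`); polar coordinates
in the `(w, v)` plane; `r = √2 sinh (t/2)` on the half line (`2 r dr = sinh t dt`).
-/

set_option autoImplicit false

open MeasureTheory Set
open scoped ENNReal

noncomputable section

namespace Fermat.Agent.LT.T6.H127

/-- The substitution `w = √2 sinh (s / 2)`. -/
def abelW (s : ℝ) : ℝ := Real.sqrt 2 * Real.sinh (s / 2)

theorem hasDerivAt_abelW (s : ℝ) :
    HasDerivAt abelW (Real.sqrt 2 / 2 * Real.cosh (s / 2)) s := by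
  have h1 : HasDerivAt (fun s : ℝ => s / 2) (1 / 2) s := by
    simpa using (hasDerivAt_id s).div_const 2
  have h2 : HasDerivAt (fun s : ℝ => Real.sinh (s / 2)) (Real.cosh (s / 2) * (1 / 2)) s :=
    h1.sinh
  have h3 : HasDerivAt (fun s : ℝ => Real.sqrt 2 * Real.sinh (s / 2))
      (Real.sqrt 2 * (Real.cosh (s / 2) * (1 / 2))) s := h2.const_mul (Real.sqrt 2)
  have e : Real.sqrt 2 / 2 * Real.cosh (s / 2) = Real.sqrt 2 * (Real.cosh (s / 2) * (1 / 2)) := by
    ring
  rw [e]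
  exact h3

theorem abelW_injective : Function.Injective abelW := by
  intro a b hab
  have h2 : (0 : ℝ) < Real.sqrt 2 := Real.sqrt_pos.mpr (by norm_num)
  have h := mul_left_cancel₀ h2.ne' hab
  have := Real.sinh_injective h
  linarith

theorem abelW_surjective : Function.Surjective abelW := by
  intro w
  have h2 : (0 : ℝ) < Real.sqrt 2 := Real.sqrt_pos.mpr (by norm_num)
  obtain ⟨u, hu⟩ := Real.sinh_surjective (w / Real.sqrt 2)
  refine ⟨2 * u, ?_⟩
  unfold abelW
  rw [show 2 * u / 2 = u by ring, hu]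
  field_simp

theorem one_add_abelW_sq (s : ℝ) : 1 + abelW s ^ 2 = Real.cosh s := by
  have h2 : Real.sqrt 2 ^ 2 = 2 := Real.sq_sqrt (by norm_num)
  have h := Real.cosh_two_mul (s / 2)
  have h' := Real.cosh_sq (s / 2)
  rw [show 2 * (s / 2) = s by ring] at h
  unfold abelW
  rw [mul_pow, h2, h, h']
  ring

theorem abelW_pos_iff (s : ℝ) : 0 < abelW s ↔ 0 < s := by
  have h2 : (0 : ℝ) < Real.sqrt 2 := Real.sqrt_pos.mpr (by norm_num)
  unfold abelW
  rw [mul_pos_iff_of_pos_left h2, Real.sinh_pos_iff]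
  constructor <;> intro h <;> linarith

theorem abelW_mul_deriv (s : ℝ) :
    2 * ((Real.sqrt 2 / 2 * Real.cosh (s / 2)) * abelW s) = Real.sinh s := by
  have h2 : Real.sqrt 2 * Real.sqrt 2 = 2 := Real.mul_self_sqrt (by norm_num)
  have h := Real.sinh_two_mul (s / 2)
  rw [show 2 * (s / 2) = s by ring] at h
  unfold abelW
  rw [h]
  linear_combination (Real.cosh (s / 2) * Real.sinh (s / 2)) * h2

/-- The substitution `w = √2 sinh (s / 2)` on the line. -/
theorem lintegral_comp_abelW (g : ℝ → ℝ≥0∞) :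
    ∫⁻ w, g w = ∫⁻ s, ENNReal.ofReal (Real.sqrt 2 / 2 * Real.cosh (s / 2)) * g (abelW s) := by
  have h := lintegral_image_eq_lintegral_abs_deriv_mul (s := univ) (f := abelW)
    (f' := fun s => Real.sqrt 2 / 2 * Real.cosh (s / 2)) MeasurableSet.univ
    (fun x _ => (hasDerivAt_abelW x).hasDerivWithinAt) abelW_injective.injOn g
  rw [image_univ, abelW_surjective.range_eq, Measure.restrict_univ] at h
  rw [h]
  refine lintegral_congr fun s => ?_
  have h2 : (0 : ℝ) < Real.sqrt 2 := Real.sqrt_pos.mpr (by norm_num)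
  rw [abs_of_pos (mul_pos (by positivity) (Real.cosh_pos _))]

/-- The substitution `w = √2 sinh (s / 2)` on the half line. -/
theorem setLIntegral_comp_abelW (g : ℝ → ℝ≥0∞) :
    ∫⁻ w in Ioi 0, g w
      = ∫⁻ s in Ioi 0, ENNReal.ofReal (Real.sqrt 2 / 2 * Real.cosh (s / 2)) * g (abelW s) := by
  rw [← lintegral_indicator measurableSet_Ioi, lintegral_comp_abelW,
    ← lintegral_indicator measurableSet_Ioi]
  refine lintegral_congr fun s => ?_
  by_cases hs : 0 < s
  · have hw : 0 < abelW s := (abelW_pos_iff s).mpr hs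
    rw [indicator_of_mem (show abelW s ∈ Ioi (0 : ℝ) from hw),
      indicator_of_mem (show s ∈ Ioi (0 : ℝ) from hs)]
  · have hw : ¬ 0 < abelW s := fun h => hs ((abelW_pos_iff s).mp h)
    rw [indicator_of_notMem (show abelW s ∉ Ioi (0 : ℝ) from hw),
      indicator_of_notMem (show s ∉ Ioi (0 : ℝ) from hs), mul_zero]

/-! ## The chain -/

/-- Scaling on the line: `∫ h (a x) dx = a⁻¹ ∫ h`. -/
theorem lintegral_comp_mul_left_pos {a : ℝ} (ha : 0 < a) {h : ℝ → ℝ≥0∞} (hh : Measurable h) :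
    ∫⁻ x, h (a * x) = ENNReal.ofReal a⁻¹ * ∫⁻ v, h v := by
  have e := Real.map_volume_mul_left ha.ne'
  have e2 : ∫⁻ y, h y ∂(Measure.map (fun x => a * x) volume) = ∫⁻ x, h (a * x) :=
    lintegral_map hh (measurable_const_mul a)
  rw [← e2, e, lintegral_smul_measure, abs_of_pos (inv_pos.mpr ha)]
  rfl

/-- The inner integral in `x`. -/
theorem abel_inner {φ : ℝ → ℝ≥0∞} (hφ : Measurable φ) (s : ℝ) :
    ∫⁻ x, φ (Real.cosh s + Real.exp s * x ^ 2 / 2)
      = ENNReal.ofReal (Real.sqrt 2 * Real.exp (-(s / 2))) * ∫⁻ v, φ (Real.cosh s + v ^ 2) := by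
  have h2 : (0 : ℝ) < Real.sqrt 2 := Real.sqrt_pos.mpr (by norm_num)
  have h22 : Real.sqrt 2 ^ 2 = 2 := Real.sq_sqrt (by norm_num)
  have ha : 0 < Real.exp (s / 2) / Real.sqrt 2 := div_pos (Real.exp_pos _) h2
  have hm : Measurable fun v : ℝ => φ (Real.cosh s + v ^ 2) :=
    hφ.comp (measurable_const.add (measurable_id.pow_const 2))
  have key := lintegral_comp_mul_left_pos ha hm
  have e1 : ∀ x : ℝ, Real.cosh s + (Real.exp (s / 2) / Real.sqrt 2 * x) ^ 2
      = Real.cosh s + Real.exp s * x ^ 2 / 2 := by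
    intro x
    have he : Real.exp s = Real.exp (s / 2) ^ 2 := by
      rw [← Real.exp_nat_mul]; congr 1; push_cast; ring
    rw [he]
    field_simp
    rw [h22]
  have e2 : (Real.exp (s / 2) / Real.sqrt 2)⁻¹ = Real.sqrt 2 * Real.exp (-(s / 2)) := by
    rw [Real.exp_neg]
    field_simp
  simp only [e1] at key
  rw [key, e2]

/-- The function `G s = ∫ φ (cosh s + v²) dv`. -/
theorem measurable_abelG {φ : ℝ → ℝ≥0∞} (hφ : Measurable φ) :
    Measurable fun s : ℝ => ∫⁻ v, φ (Real.cosh s + v ^ 2) := by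
  have hm : Measurable fun p : ℝ × ℝ => φ (Real.cosh p.1 + p.2 ^ 2) :=
    hφ.comp ((Real.measurable_cosh.comp measurable_fst).add (measurable_snd.pow_const 2))
  exact hm.lintegral_prod_right'

/-- Step 1: Tonelli and the scaling. -/
theorem abel_step1 {φ : ℝ → ℝ≥0∞} (hφ : Measurable φ) :
    ∫⁻ p : ℝ × ℝ, φ (Real.cosh p.1 + Real.exp p.1 * p.2 ^ 2 / 2)
      = ∫⁻ s, ENNReal.ofReal (Real.sqrt 2 * Real.exp (-(s / 2))) *
          ∫⁻ v, φ (Real.cosh s + v ^ 2) := by
  have hm : Measurable fun p : ℝ × ℝ => φ (Real.cosh p.1 + Real.exp p.1 * p.2 ^ 2 / 2) :=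
    hφ.comp ((Real.measurable_cosh.comp measurable_fst).add
      (((Real.measurable_exp.comp measurable_fst).mul (measurable_snd.pow_const 2)).div_const 2))
  rw [Measure.volume_eq_prod, lintegral_prod _ hm.aemeasurable]
  exact lintegral_congr fun s => abel_inner hφ s

/-- Step 2: the symmetrisation `s ↦ -s`. -/
theorem abel_step2 {φ : ℝ → ℝ≥0∞} (hφ : Measurable φ) :
    (∫⁻ s, ENNReal.ofReal (Real.sqrt 2 * Real.exp (-(s / 2))) * ∫⁻ v, φ (Real.cosh s + v ^ 2))
      + (∫⁻ s, ENNReal.ofReal (Real.sqrt 2 * Real.exp (-(s / 2))) *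
          ∫⁻ v, φ (Real.cosh s + v ^ 2))
      = 4 * ∫⁻ w, ∫⁻ v, φ (1 + w ^ 2 + v ^ 2) := by
  have h2 : (0 : ℝ) < Real.sqrt 2 := Real.sqrt_pos.mpr (by norm_num)
  have hG := measurable_abelG hφ
  have hneg : ∫⁻ s, ENNReal.ofReal (Real.sqrt 2 * Real.exp (-(s / 2))) *
        ∫⁻ v, φ (Real.cosh s + v ^ 2)
      = ∫⁻ s, ENNReal.ofReal (Real.sqrt 2 * Real.exp (s / 2)) *
        ∫⁻ v, φ (Real.cosh s + v ^ 2) := by
    have h := lintegral_neg_eq_self (μ := (volume : Measure ℝ))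
      (fun s => ENNReal.ofReal (Real.sqrt 2 * Real.exp (-(s / 2))) *
        ∫⁻ v, φ (Real.cosh s + v ^ 2))
    rw [← h]
    refine lintegral_congr fun s => ?_
    simp only [Real.cosh_neg, neg_div, neg_neg]
  have hm1 : Measurable fun s : ℝ => ENNReal.ofReal (Real.sqrt 2 * Real.exp (-(s / 2))) *
      ∫⁻ v, φ (Real.cosh s + v ^ 2) := by
    refine Measurable.mul ?_ hG
    exact ENNReal.measurable_ofReal.comp
      (measurable_const.mul (Real.measurable_exp.comp (measurable_id.div_const 2).neg))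
  have hsum : (∫⁻ s, ENNReal.ofReal (Real.sqrt 2 * Real.exp (-(s / 2))) *
        ∫⁻ v, φ (Real.cosh s + v ^ 2))
      + (∫⁻ s, ENNReal.ofReal (Real.sqrt 2 * Real.exp (-(s / 2))) *
          ∫⁻ v, φ (Real.cosh s + v ^ 2))
      = ∫⁻ s, (ENNReal.ofReal (Real.sqrt 2 * Real.exp (-(s / 2))) *
          ∫⁻ v, φ (Real.cosh s + v ^ 2))
        + ENNReal.ofReal (Real.sqrt 2 * Real.exp (s / 2)) *
          ∫⁻ v, φ (Real.cosh s + v ^ 2) := by
    rw [lintegral_add_left hm1, ← hneg]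
  rw [hsum]
  rw [lintegral_comp_abelW (fun w => ∫⁻ v, φ (1 + w ^ 2 + v ^ 2)),
    ← lintegral_const_mul' 4 _ (by norm_num)]
  refine lintegral_congr fun s => ?_
  simp only [one_add_abelW_sq]
  rw [← add_mul, ← mul_assoc]
  congr 1
  have hc : Real.exp (-(s / 2)) + Real.exp (s / 2) = 2 * Real.cosh (s / 2) := by
    rw [Real.cosh_eq]; ring
  rw [← ENNReal.ofReal_add (by positivity) (by positivity),
    show (4 : ℝ≥0∞) = ENNReal.ofReal 4 by norm_num,
    ← ENNReal.ofReal_mul (by norm_num)]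
  congr 1
  rw [← mul_add, hc]
  ring

/-- Step 3: polar coordinates in the plane. -/
theorem abel_step3 {φ : ℝ → ℝ≥0∞} (hφ : Measurable φ) :
    ∫⁻ w, ∫⁻ v, φ (1 + w ^ 2 + v ^ 2)
      = ENNReal.ofReal (2 * Real.pi) * ∫⁻ r in Ioi 0, ENNReal.ofReal r * φ (1 + r ^ 2) := by
  have hm : Measurable fun p : ℝ × ℝ => φ (1 + p.1 ^ 2 + p.2 ^ 2) :=
    hφ.comp ((measurable_const.add (measurable_fst.pow_const 2)).add (measurable_snd.pow_const 2))
  have h1 : ∫⁻ w, ∫⁻ v, φ (1 + w ^ 2 + v ^ 2) = ∫⁻ p : ℝ × ℝ, φ (1 + p.1 ^ 2 + p.2 ^ 2) := by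
    rw [Measure.volume_eq_prod, lintegral_prod _ hm.aemeasurable]
  rw [h1, ← lintegral_comp_polarCoord_symm]
  have h2 : ∀ p : ℝ × ℝ, ENNReal.ofReal p.1 • φ (1 + (polarCoord.symm p).1 ^ 2 +
      (polarCoord.symm p).2 ^ 2) = ENNReal.ofReal p.1 * φ (1 + p.1 ^ 2) := by
    intro p
    rw [smul_eq_mul, polarCoord_symm_apply]
    congr 2
    have := Real.cos_sq_add_sin_sq p.2
    simp only
    linear_combination p.1 ^ 2 * this
  simp only [h2]
  have hm2 : Measurable fun p : ℝ × ℝ => ENNReal.ofReal p.1 * φ (1 + p.1 ^ 2) :=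
    (ENNReal.measurable_ofReal.comp measurable_fst).mul
      (hφ.comp (measurable_const.add (measurable_fst.pow_const 2)))
  rw [polarCoord_target, Measure.volume_eq_prod, ← Measure.prod_restrict,
    lintegral_prod _ hm2.aemeasurable]
  simp only [lintegral_const, Measure.restrict_apply_univ, Real.volume_Ioo]
  rw [show Real.pi - -Real.pi = 2 * Real.pi by ring, ← lintegral_const_mul' _ _ ENNReal.ofReal_ne_top]
  refine lintegral_congr fun r => ?_
  rw [mul_comm]

/-- Step 4: the substitution `r = √2 sinh (t / 2)` on the half line. -/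
theorem abel_step4 (φ : ℝ → ℝ≥0∞) :
    2 * ∫⁻ r in Ioi 0, ENNReal.ofReal r * φ (1 + r ^ 2)
      = ∫⁻ t in Ioi 0, ENNReal.ofReal (Real.sinh t) * φ (Real.cosh t) := by
  rw [setLIntegral_comp_abelW, ← lintegral_const_mul' 2 _ (by norm_num)]
  refine lintegral_congr fun s => ?_
  simp only [one_add_abelW_sq]
  rw [← mul_assoc, ← mul_assoc]
  congr 1
  by_cases hs : 0 ≤ abelW s
  · rw [show (2 : ℝ≥0∞) = ENNReal.ofReal 2 by norm_num,
      ← ENNReal.ofReal_mul (by norm_num), ← ENNReal.ofReal_mul (by positivity),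
      ← abelW_mul_deriv s]
    congr 1
    ring
  · have hneg : abelW s < 0 := not_le.mp hs
    have hd : 0 < Real.sqrt 2 / 2 * Real.cosh (s / 2) :=
      mul_pos (div_pos (Real.sqrt_pos.mpr (by norm_num)) (by norm_num)) (Real.cosh_pos _)
    have h1 : Real.sinh s ≤ 0 := by
      rw [← abelW_mul_deriv s]
      nlinarith [mul_neg_of_pos_of_neg hd hneg]
    rw [ENNReal.ofReal_of_nonpos hneg.le, ENNReal.ofReal_of_nonpos h1, mul_zero]

/-- The integral form of the Abel area formula: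
`∫∫ φ (cosh s + e^s x² / 2) dx ds = 2π ∫_{t > 0} sinh t φ (cosh t) dt`. -/
theorem abel_lintegral {φ : ℝ → ℝ≥0∞} (hφ : Measurable φ) :
    ∫⁻ p : ℝ × ℝ, φ (Real.cosh p.1 + Real.exp p.1 * p.2 ^ 2 / 2)
      = ENNReal.ofReal (2 * Real.pi) *
          ∫⁻ t in Ioi 0, ENNReal.ofReal (Real.sinh t) * φ (Real.cosh t) := by
  rw [abel_step1 hφ]
  have h2 := abel_step2 hφ
  rw [abel_step3 hφ] at h2
  have h4 := abel_step4 φ
  have h5 : (2 : ℝ≥0∞) * ∫⁻ s, ENNReal.ofReal (Real.sqrt 2 * Real.exp (-(s / 2))) *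
        ∫⁻ v, φ (Real.cosh s + v ^ 2)
      = 2 * (ENNReal.ofReal (2 * Real.pi) *
          ∫⁻ t in Ioi 0, ENNReal.ofReal (Real.sinh t) * φ (Real.cosh t)) := by
    rw [two_mul, h2, ← h4]
    have : (4 : ℝ≥0∞) = 2 * 2 := by norm_num
    rw [this]
    ring
  exact (ENNReal.mul_right_inj (by norm_num) (by norm_num)).mp h5

/-- **The Abel area formula** as an identity of measures on `ℝ`. -/
theorem abelArea_measure :
    Measure.map (fun p : ℝ × ℝ => Real.cosh p.1 + Real.exp p.1 * p.2 ^ 2 / 2)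
        (volume : Measure (ℝ × ℝ))
      = ENNReal.ofReal (2 * Real.pi) • Measure.map Real.cosh
          ((volume.restrict (Set.Ioi (0 : ℝ))).withDensity
            fun t => ENNReal.ofReal (Real.sinh t)) := by
  have hmF : Measurable fun p : ℝ × ℝ => Real.cosh p.1 + Real.exp p.1 * p.2 ^ 2 / 2 :=
    (Real.measurable_cosh.comp measurable_fst).add
      (((Real.measurable_exp.comp measurable_fst).mul (measurable_snd.pow_const 2)).div_const 2)
  have hms : Measurable fun t : ℝ => ENNReal.ofReal (Real.sinh t) :=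
    ENNReal.measurable_ofReal.comp Real.measurable_sinh
  refine Measure.ext_of_lintegral _ fun φ hφ => ?_
  have hw : ∫⁻ a, φ (Real.cosh a) ∂((volume.restrict (Set.Ioi (0 : ℝ))).withDensity
        fun t => ENNReal.ofReal (Real.sinh t))
      = ∫⁻ t in Ioi 0, ENNReal.ofReal (Real.sinh t) * φ (Real.cosh t) :=
    lintegral_withDensity_eq_lintegral_mul _ hms (hφ.comp Real.measurable_cosh)
  rw [lintegral_map hφ hmF, lintegral_smul_measure, lintegral_map hφ Real.measurable_cosh, hw,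
    smul_eq_mul]
  exact abel_lintegral hφ

/-- **T6.23.09 `AbelAreaRC`**, verbatim. -/
theorem abelAreaRC127 : H189.AbelAreaRC := abelArea_measure

end Fermat.Agent.LT.T6.H127

end
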